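/-
WC (weak Chebotarev), analytic node (A2): the logarithm of an Euler product.

For a non-negative function `a : ℕ → ℝ`, multiplicative on coprime arguments, with `a 1 = 1` and
`a (p ^ e) ≤ (e + 1) ^ d` at prime powers, the Dirichlet series `L(s) = ∑ a n n ^ (-s)` converges for
`s > 1` and `|log L(s) - ∑_p a p p ^ (-s)|` is bounded uniformly in `s > 1`.
-/
import Mathlib

set_option autoImplicit false

namespace Fermat.Agent.WC

open Filter Topology

noncomputable section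

/-! ### elementary inequalities -/

lemma wc_le_log_one_add_le {x : ℝ} (hx : 0 ≤ x) : Real.log (1 + x) ≤ x := by
  have := Real.log_le_sub_one_of_pos (show 0 < 1 + x by linarith)
  linarith

lemma wc_le_le_log_one_add {x : ℝ} (hx : 0 ≤ x) : x - x ^ 2 / 2 ≤ Real.log (1 + x) := by
  refine le_trans ?_ (Real.le_log_one_add_of_nonneg hx)
  have h2 : 0 < x + 2 := by linarith
  rw [le_div_iff₀ h2]
  nlinarith [pow_nonneg hx 3]

/-- The abstract comparison: `∑ log (1 + x i)` against `∑ y i` when `x i = y i + r i`. -/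
lemma wc_le_core {ι : Type*} {x y R X : ι → ℝ} (hy : ∀ i, 0 ≤ y i) (hyx : ∀ i, y i ≤ x i)
    (hR : ∀ i, x i - y i ≤ R i) (hX : ∀ i, x i ≤ X i) (hxs : Summable x)
    (hRs : Summable R) (hX2 : Summable fun i => X i ^ 2) :
    Summable (fun i => Real.log (1 + x i)) ∧ Summable y ∧
      |∑' i, Real.log (1 + x i) - ∑' i, y i| ≤ ∑' i, R i + (∑' i, X i ^ 2) / 2 := by
  have hx0 : ∀ i, 0 ≤ x i := fun i => (hy i).trans (hyx i)
  have hlog : Summable (fun i => Real.log (1 + x i)) :=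
    Summable.of_nonneg_of_le (fun i => Real.log_nonneg (by linarith [hx0 i]))
      (fun i => wc_le_log_one_add_le (hx0 i)) hxs
  have hys : Summable y := Summable.of_nonneg_of_le hy hyx hxs
  refine ⟨hlog, hys, ?_⟩
  rw [← hlog.tsum_sub hys]
  have hdiff : Summable (fun i => Real.log (1 + x i) - y i) := hlog.sub hys
  have hR0 : ∀ i, 0 ≤ R i := fun i => le_trans (by linarith [hyx i]) (hR i)
  have hX20 : ∀ i, 0 ≤ X i ^ 2 := fun i => sq_nonneg _
  rw [abs_le]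
  constructor
  · -- lower bound
    have h1 : ∀ i, -(X i ^ 2 / 2) ≤ Real.log (1 + x i) - y i := by
      intro i
      have := wc_le_le_log_one_add (hx0 i)
      have h2 : x i ^ 2 ≤ X i ^ 2 := pow_le_pow_left₀ (hx0 i) (hX i) 2
      linarith [hyx i]
    have h3 : Summable (fun i => -(X i ^ 2 / 2)) := (hX2.div_const 2).neg
    have h4 := h3.tsum_le_tsum h1 hdiff
    rw [tsum_neg, tsum_div_const] at h4
    have h5 : 0 ≤ ∑' i, R i := tsum_nonneg hR0
    linarith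
  · -- upper bound
    have h1 : ∀ i, Real.log (1 + x i) - y i ≤ R i := by
      intro i
      have := wc_le_log_one_add_le (hx0 i)
      linarith [hR i]
    have h4 := hdiff.tsum_le_tsum h1 hRs
    have h5 : 0 ≤ ∑' i, X i ^ 2 := tsum_nonneg hX20
    linarith

/-! ### polynomial times geometric constants -/

/-- `∑ (k + j) ^ d 2 ^ (-k)`. -/
def wc_le_c (d j : ℕ) : ℝ := ∑' k : ℕ, ((k : ℝ) + j) ^ d * (1 / 2 : ℝ) ^ k

lemma wc_le_c_summable (d j : ℕ) : Summable fun k : ℕ => ((k : ℝ) + j) ^ d * (1 / 2 : ℝ) ^ k := by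
  have h := summable_pow_mul_geometric_of_norm_lt_one (R := ℝ) d
    (show ‖(1 / 2 : ℝ)‖ < 1 by rw [Real.norm_eq_abs, abs_of_pos] <;> norm_num)
  have h1 := ((summable_nat_add_iff j).mpr h).mul_left ((2 : ℝ) ^ j)
  refine h1.congr fun k => ?_
  rw [pow_add, Nat.cast_add]
  have : (2 : ℝ) ^ j * (1 / 2 : ℝ) ^ j = 1 := by
    rw [← mul_pow]; norm_num
  calc (2 : ℝ) ^ j * (((k : ℝ) + j) ^ d * ((1 / 2 : ℝ) ^ k * (1 / 2 : ℝ) ^ j))
      = ((k : ℝ) + j) ^ d * (1 / 2 : ℝ) ^ k * ((2 : ℝ) ^ j * (1 / 2 : ℝ) ^ j) := by ring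
    _ = ((k : ℝ) + j) ^ d * (1 / 2 : ℝ) ^ k := by rw [this, mul_one]

lemma wc_le_c_nonneg (d j : ℕ) : 0 ≤ wc_le_c d j :=
  tsum_nonneg fun k => by positivity

/-! ### multiplicative coefficient functions -/

/-- Non-negative, multiplicative on coprime arguments, polynomially bounded at prime powers. -/
structure wc_le_Mult (a : ℕ → ℝ) (d : ℕ) : Prop where
  one : a 1 = 1
  nonneg : ∀ n, 0 ≤ a n
  mul : ∀ {m n : ℕ}, Nat.Coprime m n → a (m * n) = a m * a n
  bound : ∀ p e : ℕ, p.Prime → a (p ^ e) ≤ ((e : ℝ) + 1) ^ d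

/-- The general term `a n n ^ (-s)` of the Dirichlet series. -/
def wc_le_term (a : ℕ → ℝ) (s : ℝ) (n : ℕ) : ℝ := a n * (n : ℝ) ^ (-s)

/-- The Dirichlet series `∑ a n n ^ (-s)`. -/
def wc_le_L (a : ℕ → ℝ) (s : ℝ) : ℝ := ∑' n : ℕ, wc_le_term a s n

/-- The prime sum `∑_p a p p ^ (-s)`. -/
def wc_le_P (a : ℕ → ℝ) (s : ℝ) : ℝ := ∑' p : Nat.Primes, wc_le_term a s p

section

variable {a : ℕ → ℝ} {d : ℕ} {s : ℝ}

lemma wc_le_term_nonneg (h : wc_le_Mult a d) (s : ℝ) (n : ℕ) : 0 ≤ wc_le_term a s n :=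
  mul_nonneg (h.nonneg n) (Real.rpow_nonneg (Nat.cast_nonneg n) _)

lemma wc_le_term_zero (a : ℕ → ℝ) (hs : 1 < s) : wc_le_term a s 0 = 0 := by
  rw [wc_le_term, Nat.cast_zero, Real.zero_rpow (by linarith), mul_zero]

lemma wc_le_term_one (h : wc_le_Mult a d) (s : ℝ) : wc_le_term a s 1 = 1 := by
  rw [wc_le_term, h.one, Nat.cast_one, Real.one_rpow, mul_one]

lemma wc_le_term_mul (h : wc_le_Mult a d) (s : ℝ) {m n : ℕ} (hmn : Nat.Coprime m n) :
    wc_le_term a s (m * n) = wc_le_term a s m * wc_le_term a s n := by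
  rw [wc_le_term, wc_le_term, wc_le_term, h.mul hmn, Nat.cast_mul,
    Real.mul_rpow (Nat.cast_nonneg m) (Nat.cast_nonneg n)]
  ring

/-- The basic bound at prime powers: `a (p ^ e) p ^ (-e s) ≤ (e + 1) ^ d p ^ (-e)`. -/
lemma wc_le_term_pow_le (h : wc_le_Mult a d) (hs : 1 < s) {p : ℕ} (hp : p.Prime) (e : ℕ) :
    wc_le_term a s (p ^ e) ≤ ((e : ℝ) + 1) ^ d * ((p : ℝ)⁻¹) ^ e := by
  have hp1 : (1 : ℝ) ≤ p := by exact_mod_cast hp.one_lt.le
  have hp0 : (0 : ℝ) < p := by linarith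
  rw [wc_le_term]
  refine mul_le_mul (h.bound p e hp) ?_ (Real.rpow_nonneg (Nat.cast_nonneg _) _) (by positivity)
  rw [Nat.cast_pow, ← Real.rpow_natCast, ← Real.rpow_mul hp0.le, mul_comm,
    Real.rpow_mul hp0.le, Real.rpow_natCast]
  refine pow_le_pow_left₀ (Real.rpow_nonneg hp0.le _) ?_ e
  rw [← Real.rpow_neg_one]
  exact Real.rpow_le_rpow_of_exponent_le hp1 (by linarith)

lemma wc_le_inv_le_half {p : ℕ} (hp : p.Prime) : ((p : ℝ)⁻¹) ≤ 1 / 2 := by
  have : (2 : ℝ) ≤ p := by exact_mod_cast hp.two_le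
  rw [one_div]
  exact inv_anti₀ (by norm_num) this

/-- Tail bound: `a (p ^ (k + j)) p ^ (-(k + j) s) ≤ p ^ (-j) (k + j + 1) ^ d 2 ^ (-k)`. -/
lemma wc_le_term_pow_add_le (h : wc_le_Mult a d) (hs : 1 < s) {p : ℕ} (hp : p.Prime) (j k : ℕ) :
    wc_le_term a s (p ^ (k + j)) ≤
      ((p : ℝ)⁻¹) ^ j * (((k : ℝ) + (j + 1 : ℕ)) ^ d * (1 / 2 : ℝ) ^ k) := by
  have hu0 : (0 : ℝ) ≤ (p : ℝ)⁻¹ := by positivity
  refine (wc_le_term_pow_le h hs hp (k + j)).trans ?_
  rw [pow_add]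
  have h1 : ((p : ℝ)⁻¹) ^ k ≤ (1 / 2 : ℝ) ^ k := pow_le_pow_left₀ hu0 (wc_le_inv_le_half hp) k
  have h2 : (((k + j : ℕ) : ℝ) + 1) = (k : ℝ) + (j + 1 : ℕ) := by push_cast; ring
  rw [h2]
  calc ((k : ℝ) + (j + 1 : ℕ)) ^ d * (((p : ℝ)⁻¹) ^ k * ((p : ℝ)⁻¹) ^ j)
      = ((p : ℝ)⁻¹) ^ j * (((k : ℝ) + (j + 1 : ℕ)) ^ d * ((p : ℝ)⁻¹) ^ k) := by ring
    _ ≤ _ := by
        refine mul_le_mul_of_nonneg_left ?_ (by positivity)
        exact mul_le_mul_of_nonneg_left h1 (by positivity)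

lemma wc_le_summable_pow_add (h : wc_le_Mult a d) (hs : 1 < s) {p : ℕ} (hp : p.Prime) (j : ℕ) :
    Summable fun k : ℕ => wc_le_term a s (p ^ (k + j)) :=
  Summable.of_nonneg_of_le (fun _ => wc_le_term_nonneg h s _)
    (fun _ => wc_le_term_pow_add_le h hs hp j _) ((wc_le_c_summable d (j + 1)).mul_left _)

lemma wc_le_tsum_pow_add_le (h : wc_le_Mult a d) (hs : 1 < s) {p : ℕ} (hp : p.Prime) (j : ℕ) :
    ∑' k : ℕ, wc_le_term a s (p ^ (k + j)) ≤ ((p : ℝ)⁻¹) ^ j * wc_le_c d (j + 1) := by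
  rw [wc_le_c, ← tsum_mul_left]
  exact (wc_le_summable_pow_add h hs hp j).tsum_le_tsum (wc_le_term_pow_add_le h hs hp j)
    ((wc_le_c_summable d (j + 1)).mul_left _)

lemma wc_le_summable_pow (h : wc_le_Mult a d) (hs : 1 < s) {p : ℕ} (hp : p.Prime) :
    Summable fun e : ℕ => wc_le_term a s (p ^ e) := by
  simpa using wc_le_summable_pow_add h hs hp 0

/-- The local factor minus one: `x_p(s) = ∑_{e ≥ 1} a (p ^ e) p ^ (-e s)`. -/
def wc_le_x (a : ℕ → ℝ) (s : ℝ) (p : ℕ) : ℝ := ∑' k : ℕ, wc_le_term a s (p ^ (k + 1))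

lemma wc_le_x_nonneg (h : wc_le_Mult a d) (s : ℝ) (p : ℕ) : 0 ≤ wc_le_x a s p :=
  tsum_nonneg fun _ => wc_le_term_nonneg h s _

lemma wc_le_tsum_pow_eq (h : wc_le_Mult a d) (hs : 1 < s) {p : ℕ} (hp : p.Prime) :
    ∑' e : ℕ, wc_le_term a s (p ^ e) = 1 + wc_le_x a s p := by
  rw [(wc_le_summable_pow h hs hp).tsum_eq_zero_add, pow_zero, wc_le_term_one h, wc_le_x]

lemma wc_le_x_eq (h : wc_le_Mult a d) (hs : 1 < s) {p : ℕ} (hp : p.Prime) :
    wc_le_x a s p = wc_le_term a s p + ∑' k : ℕ, wc_le_term a s (p ^ (k + 2)) := by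
  rw [wc_le_x, (wc_le_summable_pow_add h hs hp 1).tsum_eq_zero_add]
  simp [add_assoc]

lemma wc_le_x_le (h : wc_le_Mult a d) (hs : 1 < s) {p : ℕ} (hp : p.Prime) :
    wc_le_x a s p ≤ wc_le_c d 2 * (p : ℝ)⁻¹ := by
  have := wc_le_tsum_pow_add_le h hs hp 1
  rw [pow_one, mul_comm] at this
  exact this

lemma wc_le_x_sub_le (h : wc_le_Mult a d) (hs : 1 < s) {p : ℕ} (hp : p.Prime) :
    wc_le_x a s p - wc_le_term a s p ≤ wc_le_c d 3 * ((p : ℝ)⁻¹) ^ 2 := by
  rw [wc_le_x_eq h hs hp, add_sub_cancel_left]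
  have := wc_le_tsum_pow_add_le h hs hp 2
  rw [mul_comm] at this
  exact this

lemma wc_le_term_le_x (h : wc_le_Mult a d) (hs : 1 < s) {p : ℕ} (hp : p.Prime) :
    wc_le_term a s p ≤ wc_le_x a s p := by
  rw [wc_le_x_eq h hs hp]
  exact le_add_of_nonneg_right (tsum_nonneg fun _ => wc_le_term_nonneg h s _)

lemma wc_le_term_prime_le (h : wc_le_Mult a d) {p : ℕ} (hp : p.Prime) :
    wc_le_term a s p ≤ (2 : ℝ) ^ d * (p : ℝ) ^ (-s) := by
  rw [wc_le_term]
  refine mul_le_mul_of_nonneg_right ?_ (Real.rpow_nonneg (Nat.cast_nonneg _) _)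
  have := h.bound p 1 hp
  rw [pow_one] at this
  refine this.trans (le_of_eq ?_)
  norm_num

/-! ### global statements -/

lemma wc_le_summable_primes_inv_sq :
    Summable fun p : Nat.Primes => ((p : ℝ)⁻¹) ^ 2 := by
  refine (Nat.Primes.summable_rpow.mpr (by norm_num : (-2 : ℝ) < -1)).congr fun p => ?_
  rw [Real.rpow_neg (Nat.cast_nonneg _), Real.rpow_two, inv_pow]

/-- A summable majorant of `x_p(s)` on all of `ℕ`. -/
def wc_le_g (d : ℕ) (s : ℝ) (n : ℕ) : ℝ := (2 : ℝ) ^ d * (n : ℝ) ^ (-s) + wc_le_c d 3 * ((n : ℝ)⁻¹) ^ 2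

lemma wc_le_g_nonneg (d : ℕ) (s : ℝ) (n : ℕ) : 0 ≤ wc_le_g d s n := by
  have := wc_le_c_nonneg d 3
  have := Real.rpow_nonneg (Nat.cast_nonneg n) (-s)
  unfold wc_le_g
  positivity

lemma wc_le_g_summable (d : ℕ) (hs : 1 < s) : Summable (wc_le_g d s) := by
  refine ((Real.summable_nat_rpow.mpr (by linarith : -s < -1)).mul_left _).add
    (Summable.mul_left _ ?_)
  refine (Real.summable_nat_rpow.mpr (by norm_num : (-2 : ℝ) < -1)).congr fun n => ?_
  rw [Real.rpow_neg (Nat.cast_nonneg _), Real.rpow_two, inv_pow]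

lemma wc_le_x_le_g (h : wc_le_Mult a d) (hs : 1 < s) {p : ℕ} (hp : p.Prime) :
    wc_le_x a s p ≤ wc_le_g d s p := by
  have h1 := wc_le_x_sub_le h hs hp
  have h2 := wc_le_term_prime_le h hp (s := s)
  unfold wc_le_g
  linarith

lemma wc_le_x_summable (h : wc_le_Mult a d) (hs : 1 < s) :
    Summable fun p : Nat.Primes => wc_le_x a s p :=
  Summable.of_nonneg_of_le (fun p => wc_le_x_nonneg h s p) (fun p => wc_le_x_le_g h hs p.2)
    ((wc_le_g_summable d hs).subtype _)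

/-- The Dirichlet series converges for `s > 1`. -/
theorem wc_le_summable (h : wc_le_Mult a d) (hs : 1 < s) : Summable (wc_le_term a s) := by
  refine summable_of_sum_range_le (c := Real.exp (∑' n, wc_le_g d s n))
    (fun n => wc_le_term_nonneg h s n) (fun N => ?_)
  have hE := EulerProduct.summable_and_hasSum_smoothNumbers_prod_primesBelow_tsum
    (f := wc_le_term a s) (wc_le_term_one h s) (fun hmn => wc_le_term_mul h s hmn)
    (fun {p} hp => by
      simpa [Real.norm_of_nonneg (wc_le_term_nonneg h s _)] using wc_le_summable_pow h hs hp) N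
  have hsum : Summable (N.smoothNumbers.indicator (wc_le_term a s)) := by
    have := hE.2.summable
    exact summable_subtype_iff_indicator.mp this
  have h1 : ∑ i ∈ Finset.range N, wc_le_term a s i ≤
      ∑ i ∈ Finset.range N, N.smoothNumbers.indicator (wc_le_term a s) i := by
    refine Finset.sum_le_sum fun i hi => ?_
    rcases Nat.eq_zero_or_pos i with rfl | hi0
    · rw [wc_le_term_zero a hs]
      exact Set.indicator_nonneg (fun n _ => wc_le_term_nonneg h s n) _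
    · rw [Set.indicator_of_mem (Nat.mem_smoothNumbers_of_lt hi0 (Finset.mem_range.mp hi))]
  have h2 : ∑ i ∈ Finset.range N, N.smoothNumbers.indicator (wc_le_term a s) i ≤
      ∑' i, N.smoothNumbers.indicator (wc_le_term a s) i :=
    hsum.sum_le_tsum _ (fun i _ => Set.indicator_nonneg (fun n _ => wc_le_term_nonneg h s n) _)
  have h3 : ∑' i, N.smoothNumbers.indicator (wc_le_term a s) i =
      ∏ p ∈ N.primesBelow, ∑' n : ℕ, wc_le_term a s (p ^ n) := by
    rw [← tsum_subtype]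
    exact hE.2.tsum_eq
  have h4 : ∏ p ∈ N.primesBelow, ∑' n : ℕ, wc_le_term a s (p ^ n) =
      ∏ p ∈ N.primesBelow, (1 + wc_le_x a s p) :=
    Finset.prod_congr rfl fun p hp => wc_le_tsum_pow_eq h hs (Nat.prime_of_mem_primesBelow hp)
  have h5 : ∏ p ∈ N.primesBelow, (1 + wc_le_x a s p) ≤
      Real.exp (∑ p ∈ N.primesBelow, wc_le_x a s p) :=
    Real.prod_one_add_le_exp_sum _ (fun p => wc_le_x_nonneg h s p)
  have h6 : ∑ p ∈ N.primesBelow, wc_le_x a s p ≤ ∑' n, wc_le_g d s n := by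
    refine le_trans (Finset.sum_le_sum fun p hp =>
      wc_le_x_le_g h hs (Nat.prime_of_mem_primesBelow hp)) ?_
    exact (wc_le_g_summable d hs).sum_le_tsum _ (fun i _ => wc_le_g_nonneg d s i)
  calc ∑ i ∈ Finset.range N, wc_le_term a s i
      ≤ ∏ p ∈ N.primesBelow, (1 + wc_le_x a s p) := by rw [← h4, ← h3]; exact h1.trans h2
    _ ≤ Real.exp (∑' n, wc_le_g d s n) := h5.trans (Real.exp_le_exp.mpr h6)

/-- Euler product and its logarithm. -/
theorem wc_le_log_L (h : wc_le_Mult a d) (hs : 1 < s) :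
    Real.log (wc_le_L a s) = ∑' p : Nat.Primes, Real.log (1 + wc_le_x a s p) := by
  have hsum := wc_le_summable h hs
  have hE := EulerProduct.eulerProduct_hasProd (f := wc_le_term a s) (wc_le_term_one h s)
    (fun hmn => wc_le_term_mul h s hmn)
    (by simpa [Real.norm_of_nonneg (wc_le_term_nonneg h s _)] using hsum) (wc_le_term_zero a hs)
  have hE' : HasProd (fun p : Nat.Primes => 1 + wc_le_x a s p) (wc_le_L a s) := by
    refine hE.congr_fun fun p => ?_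
    exact (wc_le_tsum_pow_eq h hs p.2).symm
  have hpos : ∀ p : Nat.Primes, 0 < 1 + wc_le_x a s p := fun p => by
    linarith [wc_le_x_nonneg h s p]
  have hlog : Summable fun p : Nat.Primes => Real.log (1 + wc_le_x a s p) :=
    Real.summable_log_one_add_of_summable (wc_le_x_summable h hs)
  have := Real.rexp_tsum_eq_tprod hpos hlog
  rw [hE'.tprod_eq] at this
  rw [← this, Real.log_exp]

/-- The uniform constant. -/
def wc_le_C (d : ℕ) : ℝ :=
  ∑' p : Nat.Primes, wc_le_c d 3 * ((p : ℝ)⁻¹) ^ 2 +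
    (∑' p : Nat.Primes, (wc_le_c d 2 * (p : ℝ)⁻¹) ^ 2) / 2

/-- **(A2)**: `|log L(s) - ∑_p a p p ^ (-s)| ≤ C` uniformly in `s > 1`. -/
theorem wc_le_main (h : wc_le_Mult a d) (hs : 1 < s) :
    Summable (fun p : Nat.Primes => wc_le_term a s p) ∧
      |Real.log (wc_le_L a s) - wc_le_P a s| ≤ wc_le_C d := by
  have hX2 : Summable fun p : Nat.Primes => (wc_le_c d 2 * (p : ℝ)⁻¹) ^ 2 := by
    simp_rw [mul_pow]
    exact wc_le_summable_primes_inv_sq.mul_left _
  have := wc_le_core (ι := Nat.Primes) (x := fun p => wc_le_x a s p)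
    (y := fun p => wc_le_term a s p) (R := fun p => wc_le_c d 3 * ((p : ℝ)⁻¹) ^ 2)
    (X := fun p => wc_le_c d 2 * (p : ℝ)⁻¹)
    (fun p => wc_le_term_nonneg h s p) (fun p => wc_le_term_le_x h hs p.2)
    (fun p => wc_le_x_sub_le h hs p.2) (fun p => wc_le_x_le h hs p.2) (wc_le_x_summable h hs)
    (wc_le_summable_primes_inv_sq.mul_left _) hX2
  refine ⟨this.2.1, ?_⟩
  rw [wc_le_log_L h hs]
  exact this.2.2

end

end

end Fermat.Agent.WC
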